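import Fermat.Agent.FlatLocal.Bound.Module
import Fermat.Agent.FlatLocal.Bound.Supersingular
import Mathlib.LinearAlgebra.Matrix.ToLinearEquiv
import Mathlib.Algebra.CharP.Lemmas

/-!
# Bases and generators for residual representations
-/

set_option autoImplicit false

noncomputable section

open Matrix

namespace Fermat.Agent.FlatLocal.Shape

variable {k : Type} [Field k]

/-- The matrix with columns `v` and `w`. -/
def colMat (v w : Fin 2 → k) : Matrix (Fin 2) (Fin 2) k := !![v 0, w 0; v 1, w 1]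

theorem colMat_mulVec (v w x : Fin 2 → k) : colMat v w *ᵥ x = x 0 • v + x 1 • w := by
  funext i
  fin_cases i <;> simp [colMat, Matrix.mulVec, dotProduct, Fin.sum_univ_two] <;> ring

theorem exists_basis_det_ne_zero {v : Fin 2 → k} (hv : v ≠ 0) :
    ∃ w, (colMat v w).det ≠ 0 := by
  by_cases h0 : v 0 = 0
  · refine ⟨![1, 0], ?_⟩
    have h1 : v 1 ≠ 0 := fun h1 => hv (funext fun i => by fin_cases i <;> assumption)
    simp [colMat, Matrix.det_fin_two, h1]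
  · exact ⟨![0, 1], by simp [colMat, Matrix.det_fin_two, h0]⟩

theorem eq_smul_of_det_eq_zero {v w : Fin 2 → k} (hv : v ≠ 0) (h : (colMat v w).det = 0) :
    ∃ a : k, w = a • v := by
  simp only [colMat, Matrix.det_fin_two, Matrix.of_apply, Matrix.cons_val', Matrix.cons_val_zero,
    Matrix.cons_val_one, Matrix.empty_val', Matrix.cons_val_fin_one] at h
  rw [sub_eq_zero] at h
  by_cases h0 : v 0 = 0
  · have h1 : v 1 ≠ 0 := fun h1 => hv (funext fun i => by fin_cases i <;> assumption)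
    refine ⟨w 1 / v 1, funext fun i => ?_⟩
    fin_cases i
    · rw [h0, zero_mul] at h
      simp [h0, (mul_eq_zero.1 h.symm).resolve_right h1]
    · simp [h1]
  · refine ⟨w 0 / v 0, funext fun i => ?_⟩
    fin_cases i
    · simp [h0]
    · simp
      field_simp
      linear_combination h

theorem exists_eigvec {A : Matrix (Fin 2) (Fin 2) k} {c : k}
    (h : (A - c • (1 : Matrix (Fin 2) (Fin 2) k)).det = 0) : ∃ v, v ≠ 0 ∧ A *ᵥ v = c • v := by
  obtain ⟨v, hv, h⟩ := Matrix.exists_mulVec_eq_zero_iff.2 h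
  refine ⟨v, hv, sub_eq_zero.1 ?_⟩
  rwa [Matrix.sub_mulVec, Matrix.smul_mulVec, Matrix.one_mulVec] at h

theorem eig_ne_zero {A : Matrix (Fin 2) (Fin 2) k} {c : k} (hA : A.det ≠ 0)
    (h : (A - c • (1 : Matrix (Fin 2) (Fin 2) k)).det = 0) : c ≠ 0 := fun hc => by
  rw [hc, zero_smul, sub_zero] at h
  exact hA h

theorem other_eig {A : Matrix (Fin 2) (Fin 2) k} {c : k} (hc : c ≠ 0)
    (h : (A - c • (1 : Matrix (Fin 2) (Fin 2) k)).det = 0) :
    (A - (A.det / c) • (1 : Matrix (Fin 2) (Fin 2) k)).det = 0 := by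
  simp [Matrix.det_fin_two] at h ⊢
  field_simp
  linear_combination (A 0 0 * A 1 1 - A 0 1 * A 1 0) * h

theorem det_colMat_ne_zero {A : Matrix (Fin 2) (Fin 2) k} {c d : k} (hcd : c ≠ d)
    {v w : Fin 2 → k} (hv : v ≠ 0) (hw : w ≠ 0) (hAv : A *ᵥ v = c • v) (hAw : A *ᵥ w = d • w) :
    (colMat v w).det ≠ 0 := fun h => by
  obtain ⟨a, rfl⟩ := eq_smul_of_det_eq_zero hv h
  rw [Matrix.mulVec_smul, hAv, smul_smul, smul_smul] at hAw
  have ha : a ≠ 0 := fun ha => hw (by rw [ha, zero_smul])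
  exact hcd (mul_left_cancel₀ ha ((smul_left_injective k hv hAw).trans (mul_comm _ _)))

variable {p : ℕ} [Fact p.Prime] (r : Gp p →* Matrix (Fin 2) (Fin 2) k)

theorem conjBy_apply (P : (Matrix (Fin 2) (Fin 2) k)ˣ) (σ : Gp p) :
    conjBy P r σ = (↑P⁻¹ : Matrix (Fin 2) (Fin 2) k) * r σ * (↑P : Matrix (Fin 2) (Fin 2) k) := rfl

theorem det_conjBy (P : (Matrix (Fin 2) (Fin 2) k)ˣ) (σ : Gp p) :
    (conjBy P r σ).det = (r σ).det := by
  rw [conjBy_apply, Matrix.det_units_conj']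

theorem conjBy_col_zero (P : (Matrix (Fin 2) (Fin 2) k)ˣ) {v w : Fin 2 → k}
    (hP : (P : Matrix (Fin 2) (Fin 2) k) = colMat v w) {σ : Gp p} {a : k}
    (h : r σ *ᵥ v = a • v) : conjBy P r σ 0 0 = a ∧ conjBy P r σ 1 0 = 0 := by
  have h1 : conjBy P r σ *ᵥ ![1, 0] = a • ![1, 0] := by
    have hPe : (P : Matrix (Fin 2) (Fin 2) k) *ᵥ ![1, 0] = v := by
      rw [hP, colMat_mulVec]
      simp
    rw [conjBy_apply, ← Matrix.mulVec_mulVec, hPe, ← Matrix.mulVec_mulVec, h, Matrix.mulVec_smul]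
    congr 1
    rw [← hPe, Matrix.mulVec_mulVec, Units.inv_mul, Matrix.one_mulVec]
  have h00 := congrFun h1 0
  have h10 := congrFun h1 1
  simp [Matrix.mulVec, dotProduct, Fin.sum_univ_two] at h00 h10
  exact ⟨h00, h10⟩

theorem conjBy_col_one (P : (Matrix (Fin 2) (Fin 2) k)ˣ) {v w : Fin 2 → k}
    (hP : (P : Matrix (Fin 2) (Fin 2) k) = colMat v w) {σ : Gp p} {a : k}
    (h : r σ *ᵥ w = a • w) : conjBy P r σ 0 1 = 0 ∧ conjBy P r σ 1 1 = a := by
  have h1 : conjBy P r σ *ᵥ ![0, 1] = a • ![0, 1] := by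
    have hPe : (P : Matrix (Fin 2) (Fin 2) k) *ᵥ ![0, 1] = w := by
      rw [hP, colMat_mulVec]
      simp
    rw [conjBy_apply, ← Matrix.mulVec_mulVec, hPe, ← Matrix.mulVec_mulVec, h, Matrix.mulVec_smul]
    congr 1
    rw [← hPe, Matrix.mulVec_mulVec, Units.inv_mul, Matrix.one_mulVec]
  have h00 := congrFun h1 0
  have h10 := congrFun h1 1
  simp [Matrix.mulVec, dotProduct, Fin.sum_univ_two] at h00 h10
  exact ⟨h00, h10⟩

section Upper

variable {M : Gp p →* Matrix (Fin 2) (Fin 2) k}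

theorem upper_mul_apply (σ ρ : Gp p) (hσ : M σ 1 0 = 0) (hρ : M ρ 1 0 = 0) :
    M (σ * ρ) 1 0 = 0 ∧ M (σ * ρ) 0 0 = M σ 0 0 * M ρ 0 0 ∧
      M (σ * ρ) 1 1 = M σ 1 1 * M ρ 1 1 := by
  simp [Matrix.mul_apply, Fin.sum_univ_two, hσ, hρ]

theorem upper_pow_apply (σ : Gp p) (hσ : M σ 1 0 = 0) (n : ℕ) :
    M (σ ^ n) 1 0 = 0 ∧ M (σ ^ n) 0 0 = M σ 0 0 ^ n ∧ M (σ ^ n) 1 1 = M σ 1 1 ^ n := by
  induction n with
  | zero => simp
  | succ n ih =>
    obtain ⟨h1, h2, h3⟩ := upper_mul_apply (σ ^ n) σ ih.1 hσ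
    rw [pow_succ σ]
    exact ⟨h1, by rw [h2, ih.2.1, pow_succ], by rw [h3, ih.2.2, pow_succ]⟩

theorem diag_pow_apply (σ : Gp p) (h01 : M σ 0 1 = 0) (h10 : M σ 1 0 = 0) (n : ℕ) :
    M (σ ^ n) = !![M σ 0 0 ^ n, 0; 0, M σ 1 1 ^ n] := by
  induction n with
  | zero =>
    rw [pow_zero σ, map_one]
    ext i j
    fin_cases i <;> fin_cases j <;> simp
  | succ n ih =>
    rw [pow_succ σ, map_mul, ih]
    ext i j
    fin_cases i <;> fin_cases j <;>
      simp [Matrix.mul_apply, Fin.sum_univ_two, h01, h10, pow_succ]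

end Upper

variable {e : ℕ} (D : TameField p e)

/-- A conjugate of tame inertia by Frobenius is a `p`-th power modulo `Gal(C/K)`. -/
theorem exists_conj_eq_pow {τ g : Gp p} (hτ : IsInertia τ)
    (hg : ∀ (z : PadicAlgCl p) (N : ℕ), ¬ p ∣ N → z ^ N = 1 → g z = z ^ p) :
    ∃ ρ, D.FixK ρ ∧ g * τ * g⁻¹ = τ ^ p * ρ := by
  refine ⟨(τ ^ p)⁻¹ * (g * τ * g⁻¹), ?_, (mul_inv_cancel_left _ _).symm⟩
  have hback : ∀ x, (g * τ * g⁻¹) x = (τ ^ p) x → ((τ ^ p)⁻¹ * (g * τ * g⁻¹)) x = x := by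
    intro x hx
    rw [AlgEquiv.mul_apply (τ ^ p)⁻¹, hx, ← AlgEquiv.mul_apply, inv_mul_cancel,
      AlgEquiv.one_apply]
  refine Bound.fixK_of_fixW (fun x hx => hback x ?_) (hback _ ?_)
  · rw [Bound.conj_fixW hτ g x hx, Bound.pow_fix (D.inertia_fix_W hτ hx)]
  · rw [Bound.conj_varpi D hτ (hg _ _ D.not_dvd (Engine.xi_pow D τ)), Bound.pow_varpi D hτ]

/-- Frobenius, tame inertia and `Gal(C/K)` generate. -/
theorem exists_decomposition {τ g : Gp p} (hτ : IsInertia τ)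
    (hprim : IsPrimitiveRoot (τ D.ϖ / D.ϖ) e)
    (hg : ∀ (z : PadicAlgCl p) (N : ℕ), ¬ p ∣ N → z ^ N = 1 → g z = z ^ p) (h : Gp p) :
    ∃ j i : ℕ, ∃ ρ, D.FixK ρ ∧ h = g ^ j * (τ ^ i * ρ) := by
  obtain ⟨j, hj⟩ := D.exists_pow_fix_W hg h
  obtain ⟨i, hi⟩ := D.exists_pow_fixK hτ hprim hj
  exact ⟨j, i, _, hi, by rw [mul_inv_cancel_left, mul_inv_cancel_left]⟩

/-- Inertia is generated by tame inertia and `Gal(C/K)`. -/
theorem exists_inertia_decomposition {τ : Gp p} (hτ : IsInertia τ)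
    (hprim : IsPrimitiveRoot (τ D.ϖ / D.ϖ) e) {σ : Gp p} (hσ : IsInertia σ) :
    ∃ i : ℕ, ∃ ρ, D.FixK ρ ∧ σ = τ ^ i * ρ := by
  obtain ⟨i, hi⟩ := D.exists_pow_fixK hτ hprim fun x hx => D.inertia_fix_W hσ hx
  exact ⟨i, _, hi, (mul_inv_cancel_left _ _).symm⟩

theorem eq_one_of_pow_pPow [CharP k p] {x : k} {a : ℕ} (h : x ^ p ^ a = 1) : x = 1 := by
  have h' : (x - 1) ^ p ^ a = 0 := by
    rw [sub_pow_char_pow, one_pow, h, sub_self]
  exact sub_eq_zero.1 ((pow_eq_zero_iff (pow_ne_zero _ (Fact.out : p.Prime).ne_zero)).1 h')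

end Fermat.Agent.FlatLocal.Shape
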