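import Fermat.Agent.FlatLocal.Bound.Residual.Basis

/-!
# Tame eigenvalues of residual representations with a model
-/

set_option autoImplicit false

noncomputable section

open Matrix Polynomial

namespace Fermat.Agent.FlatLocal.Shape

variable {p : ℕ} [Fact p.Prime] {k : Type} [Field k] [Algebra (ZMod p) k]
variable {r : Gp p →* Matrix (Fin 2) (Fin 2) k} {e : ℕ}

/-- The line through `v`. -/
def lineSub (r : Gp p →* Matrix (Fin 2) (Fin 2) k) (v : Fin 2 → k) : AddSubgroup (RepMod r) where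
  carrier := {m | ∃ a : k, RepMod.coords r m = a • v}
  zero_mem' := ⟨0, (zero_smul k v).symm⟩
  add_mem' := fun {x y} ⟨a, ha⟩ ⟨b, hb⟩ => ⟨a + b, by
    show RepMod.coords r x + RepMod.coords r y = _
    rw [ha, hb, add_smul]⟩
  neg_mem' := fun {x} ⟨a, ha⟩ => ⟨-a, by
    show -RepMod.coords r x = _
    rw [ha, neg_smul]⟩

omit [Algebra (ZMod p) k] in
theorem smul_mem_lineSub {v : Fin 2 → k} {σ : Gp p} {a : k} (h : r σ *ᵥ v = a • v)
    {m : RepMod r} (hm : m ∈ lineSub r v) : σ • m ∈ lineSub r v := by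
  obtain ⟨b, hb⟩ := hm
  exact ⟨b * a, by rw [RepMod.coords_smul, hb, Matrix.mulVec_smul, h, smul_smul]⟩

omit [Algebra (ZMod p) k] in
theorem actEnd_aeval_eigvec {τ : Gp p} {v : Fin 2 → k} {c : k} (hv : r τ *ᵥ v = c • v)
    (P : ℤ[X]) {m : RepMod r} {a : k} (hm : RepMod.coords r m = a • v) :
    RepMod.coords r (Polynomial.aeval (actEnd (M := RepMod r) τ) P m) =
      (Polynomial.aeval c P * a) • v := by
  induction P using Polynomial.induction_on' with
  | add P Q hP hQ =>
    rw [map_add, map_add, add_mul, add_smul, ← hP, ← hQ]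
    rfl
  | monomial n z =>
    rw [Polynomial.aeval_monomial, Polynomial.aeval_monomial]
    have hpow : RepMod.coords r ((actEnd (M := RepMod r) τ ^ n) m) = (c ^ n * a) • v := by
      induction n with
      | zero => rw [pow_zero, pow_zero, one_mul]; exact hm
      | succ n ih =>
        rw [pow_succ']
        show RepMod.coords r (τ • ((actEnd (M := RepMod r) τ ^ n) m)) = _
        rw [RepMod.coords_smul, ih, Matrix.mulVec_smul, hv, smul_smul, pow_succ]
        congr 1
        ring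
    have heq : (algebraMap ℤ (AddMonoid.End (RepMod r)) z * actEnd (M := RepMod r) τ ^ n) m =
        z • (actEnd (M := RepMod r) τ ^ n) m := by
      rw [← Algebra.smul_def]
      rfl
    rw [heq]
    show z • RepMod.coords r ((actEnd (M := RepMod r) τ ^ n) m) = _
    rw [hpow, ← Int.cast_smul_eq_zsmul k, smul_smul, eq_intCast, mul_assoc]

/-- An eigenvalue of tame inertia on a line stable under `Gal(C/K)`: `1`, or given by an
exponent. -/
theorem eigen_exponent [Finite k] (T : Model p (RepMod r)) (D : TameField p e)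
    (hW : WildActsByPGroup (RepMod r) D) {τ : Gp p} (hτ : IsInertia τ) {v : Fin 2 → k}
    (hv0 : v ≠ 0) {c : k} (hv : r τ *ᵥ v = c • v)
    (hK : ∀ ρ, D.FixK ρ → ∃ a : k, r ρ *ᵥ v = a • v) :
    c = 1 ∨ ∃ l : ℕ, 1 ≤ l ∧ l ≤ Engine.top D ∧ ∀ P : (ZMod p)[X],
      Polynomial.aeval c P = 0 →
        Polynomial.aeval (Engine.res (Engine.xi D τ) ^ l) P = 0 := by
  set V := lineSub r v ⊓ T.connected
  by_cases hV : ∀ m ∈ V, m = 0
  · left
    set m := RepMod.mk r v
    have hm : RepMod.coords r (τ • m - m) = (c - 1) • v := by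
      show r τ *ᵥ v - v = _
      rw [hv, sub_smul, one_smul]
    have h := hV (τ • m - m) ⟨⟨c - 1, hm⟩,
      T.smul_sub_mem_connected fun i => hτ _ (T.norm_le i m)⟩
    rw [h] at hm
    exact sub_eq_zero.1 ((smul_eq_zero.1 hm.symm).resolve_right hv0)
  · right
    push Not at hV
    obtain ⟨l, hl1, hl2, hl⟩ := T.exists_exponent_of_stable D hW hτ V hV inf_le_right
      (fun ρ hρ m hm => by
        obtain ⟨a, ha⟩ := hK ρ hρ
        exact ⟨smul_mem_lineSub ha hm.1, T.smul_mem_connected ρ hm.2⟩)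
      (fun m hm => ⟨smul_mem_lineSub hv hm.1, T.smul_mem_connected τ hm.2⟩)
    refine ⟨l, hl1, hl2, fun P hP => ?_⟩
    obtain ⟨P', rfl⟩ := Polynomial.map_surjective (algebraMap ℤ (ZMod p)) ZMod.intCast_surjective P
    rw [aeval_def, Polynomial.eval₂_map,
      RingHom.ext_int ((algebraMap (ZMod p) k).comp (algebraMap ℤ (ZMod p))) (algebraMap ℤ k),
      ← aeval_def] at hP
    rw [aeval_def, Polynomial.eval₂_map,
      RingHom.ext_int ((algebraMap (ZMod p) (Engine.Res p)).comp (algebraMap ℤ (ZMod p)))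
        (algebraMap ℤ (Engine.Res p)), ← aeval_def]
    refine hl P' fun m hm => ?_
    obtain ⟨a, ha⟩ := hm.1
    have h := actEnd_aeval_eigvec hv P' ha
    rw [hP, zero_mul, zero_smul] at h
    exact h

theorem aeval_eq_zero_of_exponent [Finite k] {c : k} {y : Engine.Res p}
    (h : ∀ P : (ZMod p)[X], Polynomial.aeval c P = 0 → Polynomial.aeval y P = 0)
    {P : (ZMod p)[X]} (hP : Polynomial.aeval y P = 0) : Polynomial.aeval c P = 0 := by
  have hc : IsIntegral (ZMod p) c := Algebra.IsIntegral.isIntegral c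
  have heq : minpoly (ZMod p) c = minpoly (ZMod p) y :=
    minpoly.eq_of_irreducible_of_monic (minpoly.irreducible hc) (h _ (minpoly.aeval _ _))
      (minpoly.monic hc)
  refine Polynomial.aeval_eq_zero_of_dvd_aeval_eq_zero ?_ (minpoly.aeval (ZMod p) c)
  rw [heq]
  exact minpoly.dvd (ZMod p) y hP

/-- An eigenvalue in the prime field is `1` or `ω`. -/
theorem eigen_prime [Finite k] (T : Model p (RepMod r)) (D : TameField p e)
    (hW : WildActsByPGroup (RepMod r) D) {τ : Gp p} (hτ : IsInertia τ)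
    (hprim : IsPrimitiveRoot (τ D.ϖ / D.ϖ) e) {a : ZMod p}
    (ha : τ D.zeta = D.zeta ^ a.val) {v : Fin 2 → k} (hv0 : v ≠ 0) {c : k}
    (hv : r τ *ᵥ v = c • v) (hK : ∀ ρ, D.FixK ρ → ∃ b : k, r ρ *ᵥ v = b • v)
    (hc0 : c ≠ 0) (hc : c ^ p = c) : c = 1 ∨ c = algebraMap (ZMod p) k a := by
  refine (eigen_exponent T D hW hτ hv0 hv hK).imp_right fun ⟨l, hl1, hl2, hl⟩ => ?_
  have hη := Engine.isPrimitiveRoot_res_xi D hprim
  have hc1 : c ^ (p - 1) = 1 := mul_right_cancel₀ hc0 (by
    rw [one_mul, ← pow_succ, Nat.sub_add_cancel (Fact.out : p.Prime).one_le, hc])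
  have h1 := hl (Polynomial.X ^ (p - 1) - 1) (by simp [hc1])
  rw [map_sub, map_pow, Polynomial.aeval_X, map_one, sub_eq_zero, ← pow_mul] at h1
  have hdvd := (hη.pow_eq_one_iff_dvd _).1 h1
  have hltop : l = Engine.top D := by
    refine le_antisymm hl2 (Nat.le_of_mul_le_mul_right ?_
      (Nat.sub_pos_of_lt (Fact.out : p.Prime).one_lt))
    rw [Engine.top_mul]
    exact Nat.le_of_dvd (Nat.mul_pos hl1 (Nat.sub_pos_of_lt (Fact.out : p.Prime).one_lt)) hdvd
  have h2 := aeval_eq_zero_of_exponent hl (P := Polynomial.X - Polynomial.C a) (by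
    rw [map_sub, Polynomial.aeval_X, Polynomial.aeval_C, hltop, Engine.res_xi_pow_top D hτ ha,
      ← map_natCast (algebraMap (ZMod p) (Engine.Res p)), ZMod.natCast_zmod_val, sub_self])
  rwa [map_sub, Polynomial.aeval_X, Polynomial.aeval_C, sub_eq_zero] at h2

end Fermat.Agent.FlatLocal.Shape
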